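import Fermat.Agent.H13.ORD.NmGalFinal
import Fermat.Agent.H20.ORD.NmSoft

/-!
# P-ORD, block B1, row B1-GAL (helper13) : `NmGalHypStatement M p`, unconditional

`nmGalHyp_uncond : NmGalHypStatement M p`, from `Fermat.Agent.H13.ORD.nmGalHyp` and helper20's
`Fermat.Agent.H20.ORD.nmSoft`.
-/

set_option autoImplicit false

namespace Fermat.Agent.H13.ORD

open Fermat.Agent.H84.ORD

/-- **Row B1-GAL, unconditional** : the Galois compatibility of the nodal data `nmG` of
`X₀(M p)`. -/
theorem nmGalHyp_uncond (M p : ℕ) [NeZero M] [NeZero p] : NmGalHypStatement M p :=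
  nmGalHyp (Fermat.Agent.H20.ORD.nmSoft M p)

end Fermat.Agent.H13.ORD
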