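import Fermat.Agent.H13.ORD.NmGalGauss
import Fermat.Agent.H8.InertiaBasic

/-!
# P-ORD, block B1, row B1-GAL (helper13) : Galois action on the centres

For `σ` in the decomposition group of `A` : `nmCentre A (σ P) = σ (nmCentre A P)`
(`nmGal_mem_centre_smul_iff`), and the specialisation `nmR` only depends on the centre
(`nmR_congr`).
-/

set_option autoImplicit false
set_option linter.unusedSectionVars false

noncomputable section

open AlgebraicCurve ModularCurve

namespace Fermat.Agent.H13.ORD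

open Fermat.Agent.H72.FF Fermat.Agent.H18.ORD Fermat.Agent.H66 Fermat.Agent.H84.ORD
open Fermat.Agent.H10.FF

section Value

variable {N : ℕ} (A : ValuationSubring Qb)

theorem nmGal_smul_sub (σ : GQ) (f g : FLb N) :
    galF N σ • (f - g) = galF N σ • f - galF N σ • g := smul_sub _ _ _

theorem nmGal_hasValue_smul (σ : GQ) (P : Place Qb (FLb N)) (f : FLb N) (c : Qb)
    (h : HasValue P f c) : HasValue (galF N σ • P) (galF N σ • f) (σ c) := by
  rcases h with h | h
  · left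
    rw [h]
    exact nmGal_smul_algebraMap N σ c
  · right
    rw [← nmGal_smul_algebraMap N σ c, ← nmGal_smul_sub, SemilinearAut.ord_smul]
    exact h

theorem nmGal_mem_nonunits (σ : GQ) (hσ : σ ∈ A.decompositionSubgroup ℚ) {c : Qb}
    (hc : c ∈ A.nonunits) : σ c ∈ A.nonunits := by
  rw [ValuationSubring.mem_nonunits_iff_or] at hc ⊢
  rcases hc with hc | hc
  · left
    rw [hc, map_zero]
  · right
    intro h
    apply hc
    rw [← map_inv₀] at h
    exact (Fermat.Agent.H8.apply_mem_iff_of_mem_decomposition A hσ).1 h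

theorem nmGal_mem_nmInt_smul (σ : GQ) (hσ : σ ∈ A.decompositionSubgroup ℚ)
    (P : Place Qb (FLb N)) (f : FLb N) (h : f ∈ nmInt A P) :
    galF N σ • f ∈ nmInt A (galF N σ • P) := by
  obtain ⟨c, hc, hv⟩ := h
  exact ⟨σ c, Fermat.Agent.H8.apply_mem_of_mem_decomposition A hσ hc,
    nmGal_hasValue_smul σ P f c hv⟩

theorem nmGal_mem_nmMax_smul (σ : GQ) (hσ : σ ∈ A.decompositionSubgroup ℚ)
    (P : Place Qb (FLb N)) (f : FLb N) (h : f ∈ nmMax A P) :
    galF N σ • f ∈ nmMax A (galF N σ • P) := by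
  obtain ⟨c, hc, hv⟩ := h
  exact ⟨σ c, nmGal_mem_nonunits A σ hσ hc, nmGal_hasValue_smul σ P f c hv⟩

theorem nmGal_inv_smul_smul_place (σ : GQ) (P : Place Qb (FLb N)) :
    galF N σ⁻¹ • (galF N σ • P) = P := by
  rw [← mul_smul, ← map_mul, inv_mul_cancel, map_one, one_smul]

theorem nmGal_inv_smul_smul (σ : GQ) (f : FLb N) :
    galF N σ⁻¹ • (galF N σ • f) = f := by
  rw [← mul_smul, ← map_mul, inv_mul_cancel, map_one, one_smul]

theorem nmGal_smul_inv_smul (σ : GQ) (f : FLb N) :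
    galF N σ • (galF N σ⁻¹ • f) = f := by
  rw [← mul_smul, ← map_mul, mul_inv_cancel, map_one, one_smul]

end Value

section Chart

variable {N : ℕ} [NeZero N] (A : ValuationSubring Qb)

theorem nmGal_smul_nmJ (σ : GQ) : galF N σ • nmJ N = nmJ N :=
  nmGal_smul_jBarD N σ 1 (one_dvd N)

theorem nmGal_mem_nmPoly_smul (σ : GQ) (hσ : σ ∈ A.decompositionSubgroup ℚ) (y : FLb N)
    (x : FLb N) (hx : x ∈ nmPoly N A y) : galF N σ • x ∈ nmPoly N A (galF N σ • y) := by
  let S : FLb N →+* FLb N :=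
    ((SemilinearAut.toRingAut (galF N σ) : FLb N ≃+* FLb N) : FLb N →+* FLb N)
  have hle : nmPoly N A y ≤ (nmPoly N A (galF N σ • y)).comap S := by
    rw [nmPoly, Subring.closure_le]
    rintro z (⟨c, hc, rfl⟩ | hz)
    · show S (algebraMap Qb (FLb N) c) ∈ nmPoly N A (galF N σ • y)
      have e : S (algebraMap Qb (FLb N) c) = algebraMap Qb (FLb N) (σ c) :=
        nmGal_smul_algebraMap N σ c
      rw [e]
      exact Subring.subset_closure (Or.inl ⟨σ c,
        Fermat.Agent.H8.apply_mem_of_mem_decomposition A hσ hc, rfl⟩)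
    · rw [Set.mem_singleton_iff] at hz
      rw [hz]
      exact Subring.subset_closure (Or.inr rfl)
  exact hle hx

theorem nmGal_mem_nmChart_smul (σ : GQ) (hσ : σ ∈ A.decompositionSubgroup ℚ) (y : FLb N)
    (f : FLb N) (hf : f ∈ nmChart N A y) : galF N σ • f ∈ nmChart N A (galF N σ • y) := by
  rw [mem_nmChart_iff] at hf ⊢
  obtain ⟨P, hP, hev⟩ := hf
  let S : FLb N →+* FLb N :=
    ((SemilinearAut.toRingAut (galF N σ) : FLb N ≃+* FLb N) : FLb N →+* FLb N)
  let θ : ↥(nmPoly N A y) →+* ↥(nmPoly N A (galF N σ • y)) :=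
    (S.comp (nmPoly N A y).subtype).codRestrict (nmPoly N A (galF N σ • y))
      (fun x => nmGal_mem_nmPoly_smul A σ hσ y x x.2)
  refine ⟨P.map θ, hP.map θ, ?_⟩
  rw [Polynomial.eval₂_map]
  have e : (nmPoly N A (galF N σ • y)).subtype.comp θ = S.comp (nmPoly N A y).subtype := by
    ext x
    rfl
  rw [e]
  have h2 := Polynomial.hom_eval₂ P (nmPoly N A y).subtype S f
  have h3 : galF N σ • f = S f := rfl
  rw [h3, ← h2, hev, map_zero]

theorem nmGal_nmJ_mem_nmInt_iff (σ : GQ) (hσ : σ ∈ A.decompositionSubgroup ℚ)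
    (P : Place Qb (FLb N)) : nmJ N ∈ nmInt A (galF N σ • P) ↔ nmJ N ∈ nmInt A P := by
  constructor
  · intro h
    have h1 := nmGal_mem_nmInt_smul A σ⁻¹ (inv_mem hσ) _ _ h
    rwa [nmGal_smul_nmJ, nmGal_inv_smul_smul_place] at h1
  · intro h
    have h1 := nmGal_mem_nmInt_smul A σ hσ _ _ h
    rwa [nmGal_smul_nmJ] at h1

theorem nmGal_nmY_smul (σ : GQ) (hσ : σ ∈ A.decompositionSubgroup ℚ)
    (P : Place Qb (FLb N)) : nmY A (galF N σ • P) = nmY A P := by
  classical
  unfold nmY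
  by_cases h : nmJ N ∈ nmInt A P
  · rw [if_pos h, if_pos ((nmGal_nmJ_mem_nmInt_iff A σ hσ P).2 h)]
  · rw [if_neg h, if_neg (fun h' => h ((nmGal_nmJ_mem_nmInt_iff A σ hσ P).1 h'))]

theorem nmGal_smul_nmY (σ : GQ) (P : Place Qb (FLb N)) :
    galF N σ • nmY A P = nmY A P := by
  classical
  unfold nmY
  by_cases h : nmJ N ∈ nmInt A P
  · rw [if_pos h]
    exact nmGal_smul_nmJ σ
  · rw [if_neg h, smul_inv'', nmGal_smul_nmJ]

/-- `σ (centre P) ⊆ centre (σ P)` for `σ` in the decomposition group -/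
theorem nmGal_smul_mem_centre (σ : GQ) (hσ : σ ∈ A.decompositionSubgroup ℚ)
    (P : Place Qb (FLb N)) (f : FLb N) (hf : f ∈ nmCentre A P) :
    galF N σ • f ∈ nmCentre A (galF N σ • P) := by
  obtain ⟨h1, h2⟩ := hf
  refine ⟨?_, nmGal_mem_nmMax_smul A σ hσ P f h2⟩
  have h3 := nmGal_mem_nmChart_smul A σ hσ _ f h1
  rwa [nmGal_smul_nmY, ← nmGal_nmY_smul A σ hσ P] at h3

/-- `centre (σ P) = σ (centre P)` for `σ` in the decomposition group -/
theorem nmGal_mem_centre_smul_iff (σ : GQ) (hσ : σ ∈ A.decompositionSubgroup ℚ)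
    (P : Place Qb (FLb N)) (f : FLb N) :
    f ∈ nmCentre A (galF N σ • P) ↔ galF N σ⁻¹ • f ∈ nmCentre A P := by
  constructor
  · intro h
    have h1 := nmGal_smul_mem_centre A σ⁻¹ (inv_mem hσ) _ f h
    rwa [nmGal_inv_smul_smul_place] at h1
  · intro h
    have h1 := nmGal_smul_mem_centre A σ hσ P _ h
    rwa [nmGal_smul_inv_smul] at h1

/-- the centres of `σ P`, `σ P'` agree if those of `P`, `P'` do -/
theorem nmGal_centre_smul_congr (σ : GQ) (hσ : σ ∈ A.decompositionSubgroup ℚ)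
    (P P' : Place Qb (FLb N)) (h : nmCentre A P = nmCentre A P') :
    nmCentre A (galF N σ • P) = nmCentre A (galF N σ • P') := by
  ext f
  rw [nmGal_mem_centre_smul_iff A σ hσ, nmGal_mem_centre_smul_iff A σ hσ, h]

end Chart

end Fermat.Agent.H13.ORD
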