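import Fermat.Agent.H13.ORD.NmGalCentre

/-!
# P-ORD, block B1, row B1-GAL (helper13) : `NodalGalHyp (nmG htot)`

`nmGalHyp : NmSoftStatement M p → NmGalHypStatement M p`.

* `dec_oo`, `inertia_oo`, `dec_zero`, `inertia_zero` : `Fermat.Agent.H13.ORD.NmGalGauss`
  (helper85's `GalGauss`, `GalW`);
* `dec_r` : `nmR P = nmR P'` iff the centres agree (helper84, `NmBase.nmR_eq_iff_centre_eq`), and
  `nmCentre A (σ P) = σ (nmCentre A P)` for `σ` in the decomposition group;
* `inertia_r` : for `σ` in the inertia group, a place `Q` of `F_∞` (`F_0`) over the centre of `P`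
  lies over the centre of `σ P` (`red (σ⁻¹ f) = red f`), hence the two centres agree
  (helper84, `NmBase.centre_eq_of_specOo`, `NmBase.centre_eq_of_specZero`).
-/

set_option autoImplicit false
set_option linter.unusedSectionVars false

noncomputable section

open AlgebraicCurve ModularCurve

namespace Fermat.Agent.H13.ORD

open Fermat.Agent.H72.FF Fermat.Agent.H18.ORD Fermat.Agent.H66 Fermat.Agent.H84.ORD
open Fermat.Agent.H10.FF

section Final

variable {M p : ℕ} [NeZero M] [NeZero p] {A : ValuationSubring Qb}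

/-- a place of `F_∞` over the centre of `P` lies over the centre of `σ P`, `σ ∈ I_A` -/
theorem nmGal_specOo_smul (σ : GQ) (hσ : σ ∈ A.inertiaSubgroupIn ℚ)
    (P : Place Qb (FLb (M * p))) (Q : Place (kRes A) (NmF (M * p) A))
    (hQ : NmSpecOo M p A (nmCentre A P) Q) :
    NmSpecOo M p A (nmCentre A (galF (M * p) σ • P)) Q := by
  intro f hf h
  have hσi : σ⁻¹ ∈ A.inertiaSubgroupIn ℚ := inv_mem hσ
  have hσd : σ ∈ A.decompositionSubgroup ℚ := nmGal_inertia_mem_dec A σ hσ
  have hσid : σ⁻¹ ∈ A.decompositionSubgroup ℚ := inv_mem hσd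
  have h1 : galF (M * p) σ⁻¹ • f ∈ nmCentre A P :=
    (nmGal_mem_centre_smul_iff A σ hσd P f).1 hf
  have h2 : galF (M * p) σ⁻¹ • f ∈ gaussOBar (M * p) A :=
    nmGal_dec_oo (M * p) A σ⁻¹ hσid f h
  have h3 := hQ _ h1 h2
  have e := nmGal_inertia_oo (M * p) A σ⁻¹ hσi ⟨f, h⟩ h2
  rw [← e]
  exact h3

/-- a place of `F_0` over the centre of `P` lies over the centre of `σ P`, `σ ∈ I_A` -/
theorem nmGal_specZero_smul (hcop : Nat.Coprime M p) (σ : GQ) (hσ : σ ∈ A.inertiaSubgroupIn ℚ)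
    (P : Place Qb (FLb (M * p))) (Q : Place (kRes A) (NmF (M * p) A))
    (hQ : NmSpecZero M p hcop A (nmCentre A P) Q) :
    NmSpecZero M p hcop A (nmCentre A (galF (M * p) σ • P)) Q := by
  intro f hf h
  have hσi : σ⁻¹ ∈ A.inertiaSubgroupIn ℚ := inv_mem hσ
  have hσd : σ ∈ A.decompositionSubgroup ℚ := nmGal_inertia_mem_dec A σ hσ
  have hσid : σ⁻¹ ∈ A.decompositionSubgroup ℚ := inv_mem hσd
  have h1 : galF (M * p) σ⁻¹ • f ∈ nmCentre A P :=
    (nmGal_mem_centre_smul_iff A σ hσd P f).1 hf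
  have h2 : galF (M * p) σ⁻¹ • f ∈ nmV0 M p hcop A :=
    nmGal_dec_zero M p hcop A σ⁻¹ hσid f h
  have h3 := hQ _ h1 h2
  have e := nmGal_inertia_zero M p hcop A σ⁻¹ hσi ⟨f, h⟩ h2
  rw [← e]
  exact h3

/-- the inertia group fixes the centres -/
theorem nmGal_centre_inertia (H : NmBase M p A) (htot : NmTot M p H.setup.cop A) (σ : GQ)
    (hσ : σ ∈ A.inertiaSubgroupIn ℚ) (P : Place Qb (FLb (M * p))) :
    nmCentre A (galF (M * p) σ • P) = nmCentre A P := by
  rcases htot P with ⟨Q, hQ⟩ | ⟨Q, hQ⟩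
  · exact H.centre_eq_of_specOo (nmGal_specOo_smul σ hσ P Q hQ) hQ
  · exact H.centre_eq_of_specZero (nmGal_specZero_smul H.setup.cop σ hσ P Q hQ) hQ

/-- **`NodalGalHyp (nmG htot)`** from the soft facts of the two components. -/
theorem nmGalHyp_of_base (H : NmBase M p A) (htot : NmTot M p H.setup.cop A) :
    NodalGalHyp (nmG htot) where
  dec_oo := fun σ hσ u hu => nmGal_dec_oo (M * p) A σ hσ u hu
  dec_zero := fun σ hσ u hu => nmGal_dec_zero M p H.setup.cop A σ hσ u hu
  inertia_oo := fun σ hσ u h => nmGal_inertia_oo (M * p) A σ hσ u h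
  inertia_zero := fun σ hσ w h => nmGal_inertia_zero M p H.setup.cop A σ hσ w h
  inertia_r := fun σ hσ P =>
    (H.nmR_eq_iff_centre_eq htot _ _).2 (nmGal_centre_inertia H htot σ hσ P)
  dec_r := fun σ hσ P P' h =>
    (H.nmR_eq_iff_centre_eq htot _ _).2
      (nmGal_centre_smul_congr A σ hσ P P' ((H.nmR_eq_iff_centre_eq htot P P').1 h))

end Final

/-- **Row B1-GAL** : the Galois compatibility of `nmG`, from the soft facts (row B1-GAUSS). -/
theorem nmGalHyp {M p : ℕ} [NeZero M] [NeZero p] (hS : NmSoftStatement M p) :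
    NmGalHypStatement M p := by
  intro A h htot
  exact nmGalHyp_of_base (nmBase_of_soft hS h) htot

end Fermat.Agent.H13.ORD
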