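import Fermat.Agent.H84.ORD.NodalSpecFinal
import Fermat.Agent.H85.ORD.GalGauss
import Fermat.Agent.H85.ORD.GalW

/-!
# P-ORD, block B1, row B1-GAL (helper13) : Galois action on the two Gauss rings of `X₀(M p)`

The four "Gauss" fields of `NodalGalHyp (nmG htot)`, from helper85's `GalGauss` / `GalW` :

* `nmGal_dec_oo`, `nmGal_inertia_oo` : the decomposition group preserves `V_∞ = gaussOBar`, the
  inertia group acts trivially on the reductions;
* `nmW_galF` : the Atkin-Lehner automorphism `nmW` commutes with the coefficientwise Galois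
  action (it permutes the rational generators `j(q^d)`);
* `nmGal_dec_zero`, `nmGal_inertia_zero` : the twins for `V_0 = W⁻¹ V_∞`.
-/

set_option autoImplicit false
set_option linter.unusedSectionVars false

noncomputable section

open AlgebraicCurve ModularCurve

namespace Fermat.Agent.H13.ORD

open Fermat.Agent.H72.FF Fermat.Agent.H18.ORD Fermat.Agent.H66 Fermat.Agent.H84.ORD
open Fermat.Agent.H10.FF

/-! ### The component `∞` -/

section Oo

variable (N : ℕ) (A : ValuationSubring Qb)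

/-- **dec_oo** -/
theorem nmGal_dec_oo (σ : GQ) (hσ : σ ∈ A.decompositionSubgroup ℚ) (u : FLb N)
    (hu : u ∈ gaussOBar N A) : galF N σ • u ∈ gaussOBar N A :=
  Fermat.Agent.H85.ORD.gg_dec_gaussOBar σ hσ u hu

/-- **inertia_oo** (on `nmRedOo`) -/
theorem nmGal_inertia_oo (σ : GQ) (hσ : σ ∈ A.inertiaSubgroupIn ℚ) (u : gaussOBar N A)
    (h : galF N σ • (u : FLb N) ∈ gaussOBar N A) :
    nmRedOo N A ⟨_, h⟩ = nmRedOo N A u := by
  apply Subtype.ext
  rw [coe_nmRedOo, coe_nmRedOo]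
  exact Fermat.Agent.H85.ORD.gg_inertia_gaussOBar σ hσ u h

theorem nmGal_inertia_mem_dec (σ : GQ) (hσ : σ ∈ A.inertiaSubgroupIn ℚ) :
    σ ∈ A.decompositionSubgroup ℚ := by
  obtain ⟨τ, -, rfl⟩ := hσ
  exact τ.2

end Oo

/-! ### The Atkin-Lehner automorphism commutes with the Galois action -/

section AL

variable (M p : ℕ) [NeZero M] [NeZero p] (hcop : Nat.Coprime M p) (A : ValuationSubring Qb)

theorem nmGal_smul_jBarD (N : ℕ) [NeZero N] (σ : GQ) (d : ℕ) [NeZero d] (hd : d ∣ N) :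
    galF N σ • Fermat.Agent.H23.jBarD N d hd = Fermat.Agent.H23.jBarD N d hd :=
  Fermat.Agent.H85.ORD.gw_smul_jBarD σ d hd

theorem nmGal_smul_algebraMap (N : ℕ) (σ : GQ) (c : Qb) :
    galF N σ • algebraMap Qb (FLb N) c = algebraMap Qb (FLb N) (σ c) :=
  SemilinearAut.smul_algebraMap (galF N σ) c

/-- `W` commutes with the coefficientwise Galois action. -/
theorem nmW_galF (σ : GQ) (f : FLb (M * p)) :
    nmW M p hcop (galF (M * p) σ • f) = galF (M * p) σ • nmW M p hcop f := by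
  refine Fermat.Agent.H85.ORD.gw_comm_of_perm (nmW M p hcop) ?_ σ f
  intro d hd0 hd
  obtain ⟨d'', hd0'', hd'', h1, -⟩ := (nmW_spec M p hcop).1 d hd0 hd
  exact ⟨d'', hd0'', hd'', h1⟩

/-- **dec_zero** -/
theorem nmGal_dec_zero (σ : GQ) (hσ : σ ∈ A.decompositionSubgroup ℚ) (u : FLb (M * p))
    (hu : u ∈ nmV0 M p hcop A) : galF (M * p) σ • u ∈ nmV0 M p hcop A := by
  rw [mem_nmV0_iff, nmW_galF]
  exact nmGal_dec_oo (M * p) A σ hσ _ hu

/-- **inertia_zero** -/
theorem nmGal_inertia_zero (σ : GQ) (hσ : σ ∈ A.inertiaSubgroupIn ℚ) (w : nmV0 M p hcop A)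
    (h : galF (M * p) σ • (w : FLb (M * p)) ∈ nmV0 M p hcop A) :
    nmRed0 M p hcop A ⟨_, h⟩ = nmRed0 M p hcop A w := by
  rw [nmRed0_apply, nmRed0_apply]
  have hw : nmW M p hcop (w : FLb (M * p)) ∈ gaussOBar (M * p) A := w.2
  have h2 : galF (M * p) σ • nmW M p hcop (w : FLb (M * p)) ∈ gaussOBar (M * p) A :=
    nmGal_dec_oo (M * p) A σ (nmGal_inertia_mem_dec A σ hσ) _ hw
  have e := nmGal_inertia_oo (M * p) A σ hσ ⟨_, hw⟩ h2
  rw [← e]
  congr 1
  apply Subtype.ext
  exact nmW_galF M p hcop σ _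

end AL

end Fermat.Agent.H13.ORD
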