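import Fermat.Agent.H13.ORD.NmGalGauss
import Fermat.Agent.H37.FF.UnrGNF
import Fermat.Agent.H53.ORD.UnrDiscThm

/-!
# P-ORD, block B1-LIFT (helper13) : the unramified normalisation at the two Gauss valuations

(UNR-NORM) of helper22's route to `PairSemiAt` (findings #576) : an inertia-fixed function
`f ≠ 0` has a multiple `p ^ n f`, `n ∈ ℤ`, which is a unit of the Gauss ring.

* `nmUnrNormOo` : at `V_∞ = gaussOBar N A` (any level `N`);
* `nmUnrNormZero` : at `V_0 = nmV0 M p hcop A` (level `M p`), by transport along the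
  Atkin-Lehner automorphism, which commutes with the Galois action (`nmW_galF`).

Route : fixed-field descent (helper27) + the Gauss normal form over the inertia field `ℚ̄^I`
(helper66, `exists_gnf`) + [DISC] (helper53, `unrDisc_of_liesOver`).
-/

set_option autoImplicit false
set_option linter.unusedSectionVars false
set_option linter.style.haveILetI false
set_option synthInstance.maxHeartbeats 400000
set_option maxHeartbeats 1600000

noncomputable section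

open AlgebraicCurve ModularCurve

namespace Fermat.Agent.H13.ORD

open Fermat.Agent.H72.FF Fermat.Agent.H18.ORD Fermat.Agent.H66 Fermat.Agent.H84.ORD
open Fermat.Agent.H10.FF Fermat.Agent.H37.FF

section Oo

variable (N : ℕ) (A : ValuationSubring Qb)

/-- a quotient of two integral series with nonzero reductions, times a unit constant, is a unit
of the Gauss ring -/
theorem nmUnr_gauss_of_eq {x : LaurentSeries Qb} {u : ↥A} (hu : IsUnit u)
    {a b : LaurentSeries ↥A} (ha : vRho A a ≠ 0) (hb : vRho A b ≠ 0)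
    (h : x * vIota A b = algebraMap Qb (LaurentSeries Qb) (u : Qb) * vIota A a) :
    ∃ hx : x ∈ vGaussRing A, vGaussRed A ⟨x, hx⟩ ≠ 0 := by
  have h' : x * vIota A b = vIota A (HahnSeries.C u * a) := by
    rw [map_mul, ← algebraMap_eq_vIota, h]
  have hx : x ∈ vGaussRing A := ⟨HahnSeries.C u * a, b, hb, h'⟩
  have e := vGaussRed_eq A ⟨x, hx⟩ (HahnSeries.C u * a) b hb h'
  refine ⟨hx, ?_⟩
  rw [e]
  have e2 : vRho A (HahnSeries.C u * a) = vRho A (HahnSeries.C u) * vRho A a := map_mul _ _ _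
  rw [e2, vRho_C]
  have hne : algebraMap (IsLocalRing.ResidueField ↥A)
      (LaurentSeries (IsLocalRing.ResidueField ↥A)) (IsLocalRing.residue ↥A u) ≠ 0 := by
    intro h0
    have h1 : IsLocalRing.residue ↥A u = 0 :=
      (map_eq_zero (algebraMap (IsLocalRing.ResidueField ↥A)
        (LaurentSeries (IsLocalRing.ResidueField ↥A)))).1 h0
    rw [IsLocalRing.residue_eq_zero_iff] at h1
    exact (IsLocalRing.mem_maximalIdeal _).1 h1 hu
  exact div_ne_zero (mul_ne_zero hne ha) hb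

/-- **(UNR-NORM) at `V_∞`.** -/
theorem nmUnrNormOo (p : ℕ) (hp : p.Prime) (hA : A.LiesOverPrime p) (f : FLb N) (hf : f ≠ 0)
    (hunr : IsUnrFn A N f) :
    ∃ (n : ℤ) (h : algebraMap Qb (FLb N) ((p : Qb) ^ n) * f ∈ gaussOBar N A),
      nmRedOo N A ⟨_, h⟩ ≠ 0 := by
  classical
  set K₀ := IntermediateField.fixedField (A.inertiaSubgroupIn ℚ) with hK₀
  set R' : ValuationSubring ↥K₀ := A.comap (algebraMap ↥K₀ Qb) with hR'
  have hfix : ∀ σ ∈ A.inertiaSubgroupIn ℚ,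
      coeffMap ((σ : Qb ≃ₐ[ℚ] Qb) : Qb →+* Qb) (f : LaurentSeries Qb) = f :=
    fun σ hσ => congrArg Subtype.val (hunr σ hσ)
  obtain ⟨f₁, hf₁, hf₁f⟩ := Fermat.Agent.H27.FF.fixedDescent (modularFunctionFieldFull N)
    (A.inertiaSubgroupIn ℚ) (f : LaurentSeries Qb) f.2 hfix
  have hf₁0 : f₁ ≠ 0 := by
    rintro rfl
    rw [map_zero] at hf₁f
    exact hf (Subtype.ext hf₁f.symm)
  obtain ⟨c₁, a₁, b₁, hc₁, -, -, hra, hrb, h⟩ := Fermat.Agent.H66.exists_gnf N R' hf₁ hf₁0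
  have hcomp : (A.subtype : ↥A →+* Qb).comp (unrIncl A) =
      (algebraMap ↥K₀ Qb).comp R'.subtype := RingHom.ext fun _ => rfl
  have hι : ∀ y : LaurentSeries ↥R', vIota A (coeffMap (unrIncl A) y) =
      coeffMap (algebraMap ↥K₀ Qb) (vIota R' y) := by
    intro y
    show coeffMap A.subtype (coeffMap (unrIncl A) y) =
      coeffMap (algebraMap ↥K₀ Qb) (coeffMap R'.subtype y)
    rw [coeffMap_coeffMap, coeffMap_coeffMap, hcomp]
  have hred : ∀ y : LaurentSeries ↥R', vRho R' y ≠ 0 →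
      vRho A (coeffMap (unrIncl A) y) ≠ 0 := by
    intro y hy
    rw [vRho_ne_zero_iff] at hy ⊢
    obtain ⟨m, hm⟩ := hy
    refine ⟨m, ?_⟩
    rw [coeffMap_coeff]
    exact hm.map (unrIncl A)
  -- the constant
  have hc0 : ((c₁ : ↥K₀) : Qb) ≠ 0 := fun h0 => hc₁ (Subtype.ext h0)
  have hcfix : ∀ σ ∈ A.inertiaSubgroupIn ℚ, σ ((c₁ : ↥K₀) : Qb) = ((c₁ : ↥K₀) : Qb) :=
    (IntermediateField.mem_fixedField_iff _ _).1 c₁.2
  obtain ⟨n, hn1, hn2⟩ := Fermat.Agent.H53.unrDisc_of_liesOver p A hp hA _ hc0 hcfix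
  have hp0 : (p : Qb) ≠ 0 := by exact_mod_cast hp.ne_zero
  have hcp0 : ((c₁ : ↥K₀) : Qb) * (p : Qb) ^ n ≠ 0 := mul_ne_zero hc0 (zpow_ne_zero _ hp0)
  have huu : IsUnit (⟨((c₁ : ↥K₀) : Qb) * (p : Qb) ^ n, hn1⟩ : ↥A) := by
    refine IsUnit.of_mul_eq_one (⟨(((c₁ : ↥K₀) : Qb) * (p : Qb) ^ n)⁻¹, hn2⟩ : ↥A) ?_
    apply Subtype.ext
    show ((c₁ : ↥K₀) : Qb) * (p : Qb) ^ n * (((c₁ : ↥K₀) : Qb) * (p : Qb) ^ n)⁻¹ = 1
    exact mul_inv_cancel₀ hcp0
  -- the equation over `ℚ̄`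
  have hQ : (f : LaurentSeries Qb) * vIota A (coeffMap (unrIncl A) b₁) =
      algebraMap Qb (LaurentSeries Qb) ((c₁ : ↥K₀) : Qb) *
        vIota A (coeffMap (unrIncl A) a₁) := by
    rw [hι, hι, ← hf₁f, ← map_mul, h, map_mul, Fermat.Agent.H27.FF.coeffMap_algebraMap_hom]
    rfl
  have hg : ((algebraMap Qb (FLb N) ((p : Qb) ^ n) * f : FLb N) : LaurentSeries Qb) *
      vIota A (coeffMap (unrIncl A) b₁) =
      algebraMap Qb (LaurentSeries Qb)
        (((⟨((c₁ : ↥K₀) : Qb) * (p : Qb) ^ n, hn1⟩ : ↥A) : ↥A) : Qb) *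
        vIota A (coeffMap (unrIncl A) a₁) := by
    have e1 : ((algebraMap Qb (FLb N) ((p : Qb) ^ n) * f : FLb N) : LaurentSeries Qb) =
        algebraMap Qb (LaurentSeries Qb) ((p : Qb) ^ n) * (f : LaurentSeries Qb) := rfl
    rw [e1, mul_assoc, hQ, ← mul_assoc, ← map_mul, mul_comm ((p : Qb) ^ n)]
  obtain ⟨hx, hr⟩ := nmUnr_gauss_of_eq A huu (hred a₁ hra) (hred b₁ hrb) hg
  refine ⟨n, hx, ?_⟩
  rw [Ne, nmRedOo_eq_zero_iff]
  exact hr

end Oo

section Zero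

variable (M p : ℕ) [NeZero M] [NeZero p] (hcop : Nat.Coprime M p) (A : ValuationSubring Qb)

/-- `W f` is inertia-fixed if `f` is -/
theorem nmUnr_isUnrFn_W (f : FLb (M * p)) (hunr : IsUnrFn A (M * p) f) :
    IsUnrFn A (M * p) (nmW M p hcop f) := by
  intro σ hσ
  rw [← nmW_galF, hunr σ hσ]

/-- **(UNR-NORM) at `V_0`.** -/
theorem nmUnrNormZero (hp : p.Prime) (hA : A.LiesOverPrime p) (f : FLb (M * p)) (hf : f ≠ 0)
    (hunr : IsUnrFn A (M * p) f) :
    ∃ (n : ℤ) (h : algebraMap Qb (FLb (M * p)) ((p : Qb) ^ n) * f ∈ nmV0 M p hcop A),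
      nmRed0 M p hcop A ⟨_, h⟩ ≠ 0 := by
  have hWf : nmW M p hcop f ≠ 0 := (EmbeddingLike.map_ne_zero_iff).2 hf
  obtain ⟨n, h, hr⟩ := nmUnrNormOo (M * p) A p hp hA (nmW M p hcop f) hWf
    (nmUnr_isUnrFn_W M p hcop A f hunr)
  have e : nmW M p hcop (algebraMap Qb (FLb (M * p)) ((p : Qb) ^ n) * f) =
      algebraMap Qb (FLb (M * p)) ((p : Qb) ^ n) * nmW M p hcop f := by
    rw [map_mul, (nmW M p hcop).commutes]
  have h0 : algebraMap Qb (FLb (M * p)) ((p : Qb) ^ n) * f ∈ nmV0 M p hcop A := by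
    rw [mem_nmV0_iff, e]
    exact h
  refine ⟨n, h0, ?_⟩
  rw [nmRed0_apply]
  have e2 : (⟨nmW M p hcop (algebraMap Qb (FLb (M * p)) ((p : Qb) ^ n) * f), h0⟩ :
      gaussOBar (M * p) A) = ⟨_, h⟩ := Subtype.ext e
  rw [e2]
  exact hr

end Zero

end Fermat.Agent.H13.ORD
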